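import Fermat.Agent.Maz12.Line

/-!
# The cofixed line lies in the identity component at `2` and `3`
-/

set_option autoImplicit false
set_option linter.unusedSectionVars false
set_option linter.style.haveILetI false

noncomputable section

namespace Fermat.Agent.Maz12

open WeierstrassCurve WeierstrassCurve.Affine WeierstrassCurve.Affine.Point
open Fermat.Agent.EC Fermat.Agent.CL Fermat.Agent.Mz

local notation "Qb" => AlgebraicClosure ℚ

variable (P : FreyPackage)

section two

variable {N : AddSubgroup (P.freyCurve⁄Qb).Point} {A : ValuationSubring Qb}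

/-- the line lies in the identity component at `2` -/
theorem line_two (hNcard : Nat.card N = P.p)
    (hcof : ∀ σ : Qb ≃ₐ[ℚ] Qb, ∀ x ∈ tors (P.freyCurve⁄Qb) P.p, σ • x - x ∈ N)
    (hA : A.LiesOverPrime 2) {r t : ℚ} {tp tm : Qb}
    (M : MultT A.valuation (P.freyCurve⁄Qb) (algebraMap ℚ Qb r) (algebraMap ℚ Qb t) tp tm) :
    N ≤ M.toIntT.E0 M.hm := by
  have hp2 : P.p ≠ 2 := by have := P.hp5; omega
  obtain ⟨σ, hσ, Q, hQ, hσQ⟩ := frey_ramified_two P hA
  rcases line_dichotomy P.pp hNcard (M.toIntT.E0 M.hm) with h | h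
  · exfalso
    apply hσQ
    rw [← sub_eq_zero]
    exact h _ (hcof σ Q hQ) ((isInert_of_mem A hσ).sub_mem_E0 M P.pp hp2 hQ)
  · exact h

end two

section three

variable {N : AddSubgroup (P.freyCurve⁄Qb).Point} {A : ValuationSubring Qb} {q : ℕ}

theorem val_p (hq : q.Prime) (hqp : q ≠ P.p) (hA : A.LiesOverPrime q) :
    A.valuation (P.p : Qb) = 1 := by
  have hv : A.valuation (q : Qb) < 1 := hA
  have : ¬ (q : ℤ) ∣ (P.p : ℤ) := by
    intro h
    rw [Int.natCast_dvd_natCast, Nat.prime_dvd_prime_iff_eq hq P.pp] at h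
    exact hqp h
  exact_mod_cast val_int_eq_one_of_not_dvd A.valuation hq hv this

/-- small primes are bad primes -/
theorem small_bad (hNcard : Nat.card N = P.p)
    (hVcard : Nat.card (tors (P.freyCurve⁄Qb) P.p) = P.p ^ 2)
    (hcof : ∀ σ : Qb ≃ₐ[ℚ] Qb, ∀ x ∈ tors (P.freyCurve⁄Qb) P.p, σ • x - x ∈ N)
    (hq : q.Prime) (hqp : q ^ 2 + 1 < P.p) : (q : ℤ) ∣ P.a * P.b * P.c := by
  by_contra habc
  obtain ⟨A, hA⟩ := Places.exists_liesOverPrime Qb hq
  obtain ⟨φ, hφ⟩ := Places.exists_isFrobeniusAt A hq hA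
  have hqp' : q ≠ P.p := by
    rintro rfl
    nlinarith
  set V := tors (P.freyCurve⁄Qb) P.p with hV
  let f : V →+ N := AddMonoidHom.mk' (fun x => ⟨φ • (x : (P.freyCurve⁄Qb).Point) - x, hcof φ x x.2⟩)
    (fun a b => by
      apply Subtype.ext
      change φ • ((a : (P.freyCurve⁄Qb).Point) + b) - (a + b) = (φ • (a : (P.freyCurve⁄Qb).Point) - a) +
        (φ • (b : (P.freyCurve⁄Qb).Point) - b)
      rw [smul_add]
      abel)
  let G : AddSubgroup (P.freyCurve⁄Qb).Point := f.ker.map V.subtype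
  have hG : ∀ x ∈ G, P.p • x = 0 ∧ φ • x = x := by
    rintro _ ⟨x, hx, rfl⟩
    refine ⟨x.2, ?_⟩
    have h1 : f x = 0 := hx
    have h2 := congrArg Subtype.val h1
    exact sub_eq_zero.1 h2
  have h1 := card_le_good hq.one_lt hφ (frey_isInt P A.valuation) (frey_good P A.valuation hq hA habc)
    P.hp_odd (val_p P hq hqp' hA) (G := G) (fun x hx => (hG x hx).1) (fun x hx => (hG x hx).2)
  have h2 : Nat.card G = Nat.card f.ker :=
    Nat.card_congr (f.ker.equivMapOfInjective V.subtype V.subtype_injective).symm.toEquiv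
  have h3 : Nat.card V = Nat.card f.ker * f.ker.index := (AddSubgroup.card_mul_index f.ker).symm
  have h4 : f.ker.index = Nat.card f.range := AddSubgroup.index_ker f
  haveI : Finite N := Nat.finite_of_card_ne_zero (by rw [hNcard]; exact P.pp.ne_zero)
  have h5 : Nat.card f.range ≤ P.p := by
    rw [← hNcard]
    exact Nat.card_le_card_of_injective _ f.range.subtype_injective
  rw [hVcard, h4] at h3
  have h6 : P.p ≤ Nat.card f.ker := by
    by_contra hlt
    push Not at hlt
    have : Nat.card f.ker * Nat.card f.range < P.p ^ 2 := by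
      rw [sq]
      exact Nat.mul_lt_mul_of_lt_of_le hlt h5 P.hppos
    omega
  omega

/-- the line lies in the identity component at small primes -/
theorem line_small (hNV : N ≤ tors (P.freyCurve⁄Qb) P.p) (hNcard : Nat.card N = P.p)
    (hVcard : Nat.card (tors (P.freyCurve⁄Qb) P.p) = P.p ^ 2)
    (hcof : ∀ σ : Qb ≃ₐ[ℚ] Qb, ∀ x ∈ tors (P.freyCurve⁄Qb) P.p, σ • x - x ∈ N)
    (hq : q.Prime) (hqp : q ^ 2 + 1 < P.p) (hA : A.LiesOverPrime q) {r t : ℚ} {tp tm : Qb}
    (M : MultT A.valuation (P.freyCurve⁄Qb) (algebraMap ℚ Qb r) (algebraMap ℚ Qb t) tp tm) :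
    N ≤ M.toIntT.E0 M.hm := by
  have hp2 : P.p ≠ 2 := by have := P.hp5; omega
  have hqp' : q ≠ P.p := by
    rintro rfl
    nlinarith
  rcases line_dichotomy P.pp hNcard (M.toIntT.E0 M.hm) with h | h
  swap
  · exact h
  exfalso
  obtain ⟨φ, hφ⟩ := Places.exists_isFrobeniusAt A hq hA
  set V := tors (P.freyCurve⁄Qb) P.p with hV
  let G : AddSubgroup (P.freyCurve⁄Qb).Point := V ⊓ M.toIntT.E0 M.hm
  have hφE : ∀ x ∈ M.toIntT.E0 M.hm, φ • x ∈ M.toIntT.E0 M.hm := by
    intro x hx
    rcases x with _ | ⟨x, y, hn⟩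
    · have h0 : φ • (0 : (P.freyCurve⁄Qb).Point) = 0 := rfl
      change φ • (0 : (P.freyCurve⁄Qb).Point) ∈ _
      rw [h0]; exact zero_mem _
    · rw [smul_some, M.toIntT.mem_E0_some]
      have h1 := (M.toIntT.mem_E0_some M.hm hn).1 hx
      have h2 : A.valuation (φ x - algebraMap ℚ Qb r) = A.valuation (x - algebraMap ℚ Qb r) := by
        rw [← valuation_map_eq A hφ.mem_decompositionSubgroup (x - algebraMap ℚ Qb r), map_sub φ,
          AlgEquiv.commutes]
      rw [h2]
      exact h1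
  have hfix : ∀ x ∈ G, φ • x = x := by
    rintro x ⟨hx1, hx2⟩
    rw [← sub_eq_zero]
    exact h _ (hcof φ x hx1) (sub_mem (hφE x hx2) hx2)
  have h1 := card_le_mult hq.one_lt hφ (frey_isInt P A.valuation) M.toIntT M.hm
    P.hp_odd (val_p P hq hqp' hA) (G := G) (fun x hx => hx.1) inf_le_right hfix
  obtain ⟨x, hx, hx0, hxE⟩ := exists_mem_E0 M P.pp hp2 (V := V) (fun x hx => hx) hVcard
  haveI : Fact P.p.Prime := ⟨P.pp⟩
  have h2 : addOrderOf x = P.p := addOrderOf_eq_prime hx hx0
  haveI : Finite V := Nat.finite_of_card_ne_zero (by rw [hVcard]; exact pow_ne_zero 2 P.pp.ne_zero)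
  haveI : Finite G := Finite.of_injective (AddSubgroup.inclusion (inf_le_left : G ≤ V))
    (AddSubgroup.inclusion_injective _)
  have h3 : AddSubgroup.zmultiples x ≤ G := by
    rw [AddSubgroup.zmultiples_le]
    exact ⟨hx, hxE⟩
  have h4 := Nat.card_le_card_of_injective _ (AddSubgroup.inclusion_injective h3)
  rw [Nat.card_zmultiples, h2] at h4
  exact absurd (h4.trans h1) (not_le.2 hqp)

end three

end Fermat.Agent.Maz12
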