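import Fermat.Agent.Maz12.Sym
import Fermat.Prelude.Def_GaloisRep_ComplexConjugation

/-!
# No cofixed line for `p ≥ 17`
-/

set_option autoImplicit false
set_option linter.unusedSectionVars false
set_option linter.style.haveILetI false

noncomputable section

namespace Fermat.Agent.Maz12

open WeierstrassCurve WeierstrassCurve.Affine WeierstrassCurve.Affine.Point
open Fermat.Agent.EC Fermat.Agent.CL Fermat.Agent.Mz

local notation "Qb" => AlgebraicClosure ℚ

section good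

variable {K : Type*} [Field K] [DecidableEq K] {Γ₀ : Type*} [LinearOrderedCommGroupWithZero Γ₀]
  {v : Valuation K Γ₀} {W : WeierstrassCurve K}

/-- the `ψ₂`-values at points of odd order are units (good reduction) -/
theorem psq_unit_good (hW : IsInt v W) (hΔ : v W.Δ = 1) (hnat : ∀ n : ℕ, v (n : K) ≤ 1)
    {N : ℕ} (hN : Odd N) (hvN : v (N : K) = 1) {P : W.toAffine.Point} (hP : N • P = 0)
    (hP0 : P ≠ 0) : v (psq W P) = 1 := by
  refine le_antisymm (psq_le hW hnat hN hvN hP) ?_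
  by_contra hlt
  push Not at hlt
  have h2P : P + P ≠ 0 := by
    intro h0
    apply hP0
    obtain ⟨n, hn⟩ := hN
    have h3 : (2 * n + 1) • P = P := by
      rw [add_nsmul, mul_nsmul', two_nsmul, ← nsmul_add, h0, smul_zero, zero_add, one_nsmul]
    rw [← h3, ← hn]
    exact hP
  rcases P with _ | ⟨x, y, h⟩
  · exact hP0 rfl
  have hx : v x ≤ 1 := hW.torsion_integral hN hvN h hP
  have hlt' : v (2 * y + W.a₁ * x + W.a₃) < 1 := by
    change v ((2 * y + W.a₁ * x + W.a₃) ^ 2) < 1 at hlt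
    rw [map_pow] at hlt
    by_contra hcon
    push Not at hcon
    exact absurd hlt (not_lt.2 (one_le_pow₀ hcon))
  have hn := (nonsingular_neg (W' := W.toAffine) x y).mpr h
  have e : (Point.some x y h : W.toAffine.Point) - Point.some x (W.toAffine.negY x y) hn =
      Point.some x y h + Point.some x y h := by
    rw [← Point.neg_some h, sub_neg_eq_add]
  rcases hW.sub_reduces hΔ hn h hx (by rw [sub_self, _root_.map_zero]; exact zero_lt_one) (by
    rw [negY]
    have e : y - (-y - W.a₁ * x - W.a₃) = 2 * y + W.a₁ * x + W.a₃ := by ring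
    rw [e]
    exact hlt') with h0 | ⟨x', y', h', he, hx'⟩
  · rw [e] at h0
    exact h2P h0
  · rw [e] at he
    have h3 : N • (Point.some x' y' h' : W.toAffine.Point) = 0 := by
      rw [← he, nsmul_add]
      have : N • (Point.some x y h : W.toAffine.Point) = 0 := hP
      rw [this, add_zero]
    exact absurd (hW.torsion_integral hN hvN h' h3) (not_le.2 hx')

end good

variable (P : FreyPackage)

/-- `b ^ p = 4 γ` with `8 ∣ γ` -/
theorem exists_gamma : ∃ γ : ℤ, P.b ^ P.p = 4 * γ ∧ 8 ≤ |γ| := by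
  obtain ⟨k, hk⟩ := frey_b_pow P
  refine ⟨8 * k, by rw [hk]; ring, ?_⟩
  have hk0 : k ≠ 0 := by
    rintro rfl
    rw [mul_zero] at hk
    exact P.hb0 ((pow_eq_zero_iff P.hp0).1 hk)
  rw [abs_mul]
  have := Int.one_le_abs hk0
  norm_num
  exact this

theorem freyQ_a₂ {γ : ℤ} (hγ : P.b ^ P.p = 4 * γ) :
    (P.freyCurve⁄Qb).a₂ = (4 * (γ : Qb) - 1 - (P.a : Qb) ^ P.p) / 4 := by
  rw [EC.baseChange_a₂]
  have h : P.freyCurve.a₂ = (4 * (γ : ℚ) - 1 - (P.a : ℚ) ^ P.p) / 4 := by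
    have : (P.b : ℚ) ^ P.p = 4 * γ := by exact_mod_cast hγ
    change ((P.b : ℚ) ^ P.p - 1 - P.a ^ P.p) / 4 = _
    rw [this]
  rw [h]
  simp only [map_div₀, map_sub, map_mul, map_pow, map_intCast, map_ofNat, map_one]

theorem freyQ_a₄ {γ : ℤ} (hγ : P.b ^ P.p = 4 * γ) :
    (P.freyCurve⁄Qb).a₄ = -((P.a : Qb) ^ P.p * γ) / 4 := by
  rw [EC.baseChange_a₄]
  have h : P.freyCurve.a₄ = -((P.a : ℚ) ^ P.p * γ) / 4 := by
    have : (P.b : ℚ) ^ P.p = 4 * γ := by exact_mod_cast hγ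
    change -((P.a : ℚ) ^ P.p) * (P.b : ℚ) ^ P.p / 16 = _
    rw [this]
    ring
  rw [h]
  simp only [map_div₀, map_neg, map_mul, map_pow, map_intCast, map_ofNat]

theorem freyQ_a₁ : (P.freyCurve⁄Qb).a₁ = 1 := by
  rw [EC.baseChange_a₁, show P.freyCurve.a₁ = 1 from rfl, map_one]

theorem freyQ_a₃ : (P.freyCurve⁄Qb).a₃ = 0 := by
  rw [EC.baseChange_a₃, show P.freyCurve.a₃ = 0 from rfl, _root_.map_zero]

theorem freyQ_a₆ : (P.freyCurve⁄Qb).a₆ = 0 := by
  rw [show (P.freyCurve⁄Qb).a₆ = algebraMap ℚ Qb P.freyCurve.a₆ from rfl,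
    show P.freyCurve.a₆ = 0 from rfl, _root_.map_zero]

/-- the factorisation of `ψ₂²` -/
theorem psq_eq {γ : ℤ} (hγ : P.b ^ P.p = 4 * γ) {x y : Qb}
    (h : (P.freyCurve⁄Qb).Nonsingular x y) :
    psq (P.freyCurve⁄Qb) (Point.some x y h) = x * (4 * x - (P.a : Qb) ^ P.p) * (x + γ) := by
  have hE := h.1
  rw [equation_iff] at hE
  change (2 * y + (P.freyCurve⁄Qb).a₁ * x + (P.freyCurve⁄Qb).a₃) ^ 2 = _
  have h1 : (toAffine (P.freyCurve⁄Qb)).a₁ = 1 := freyQ_a₁ P
  have h2 : (toAffine (P.freyCurve⁄Qb)).a₂ = (4 * (γ : Qb) - 1 - (P.a : Qb) ^ P.p) / 4 :=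
    freyQ_a₂ P hγ
  have h3 : (toAffine (P.freyCurve⁄Qb)).a₃ = 0 := freyQ_a₃ P
  have h4 : (toAffine (P.freyCurve⁄Qb)).a₄ = -((P.a : Qb) ^ P.p * γ) / 4 := freyQ_a₄ P hγ
  have h6 : (toAffine (P.freyCurve⁄Qb)).a₆ = 0 := freyQ_a₆ P
  rw [h1, h2, h3, h4, h6] at hE
  rw [freyQ_a₁, freyQ_a₃]
  linear_combination 4 * hE

section

variable {N : AddSubgroup (P.freyCurve⁄Qb).Point}

/-- the values `x - e` are not in the maximal ideal -/
theorem one_le_val (hs : Sym P.p) (h17 : 17 ≤ P.p)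
    (hNV : N ≤ tors (P.freyCurve⁄Qb) P.p) (hNcard : Nat.card N = P.p)
    (hVcard : Nat.card (tors (P.freyCurve⁄Qb) P.p) = P.p ^ 2)
    (hstab : ∀ σ : Qb ≃ₐ[ℚ] Qb, ∀ x ∈ N, σ • x ∈ N)
    (hcof : ∀ σ : Qb ≃ₐ[ℚ] Qb, ∀ x ∈ tors (P.freyCurve⁄Qb) P.p, σ • x - x ∈ N)
    {γ : ℤ} (hγ : P.b ^ P.p = 4 * γ)
    {q : ℕ} (hq : q.Prime) {A : ValuationSubring Qb} (hA : A.LiesOverPrime q)
    {Q : (P.freyCurve⁄Qb).Point} (hQ : Q ∈ N) (hQ0 : Q ≠ 0) :
    1 ≤ A.valuation (xc Q) ∧ 1 ≤ A.valuation (xc Q + γ) := by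
  have hv : A.valuation (q : Qb) < 1 := hA
  by_cases hqp : q = P.p
  · subst hqp
    have h1 := line_p P hNV hNcard hVcard hstab hA hQ hQ0
    refine ⟨h1.le, ?_⟩
    rw [Valuation.map_add_eq_of_lt_left]
    · exact h1.le
    · exact (val_int_le A.valuation γ).trans_lt h1
  have hvp := val_p P hq hqp hA
  have hpsq : A.valuation (psq (P.freyCurve⁄Qb) Q) = 1 := by
    by_cases habc : (q : ℤ) ∣ P.a * P.b * P.c
    · obtain ⟨r, t, tp, tm, M⟩ := frey_bad P A.valuation hq hv habc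
      exact psq_unit (frey_isInt P A.valuation) M.toIntT M.hm (val_nat_le A.valuation) P.hp_odd hvp
        (hNV hQ) hQ0 (line_all P hs h17 hNV hNcard hVcard hstab hcof hq hqp habc hA M.toIntT M.hm hQ)
    · exact psq_unit_good (frey_isInt P A.valuation) (frey_good P A.valuation hq hv habc)
        (val_nat_le A.valuation) P.hp_odd hvp (hNV hQ) hQ0
  have hint : A.valuation (xc Q) ≤ 1 := by
    rcases Q with _ | ⟨x, y, h⟩
    · exact absurd rfl hQ0
    · exact (frey_isInt P A.valuation).torsion_integral P.hp_odd hvp h (hNV hQ)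
  have h2 : A.valuation (xc Q + γ) ≤ 1 :=
    (Valuation.map_add _ _ _).trans (max_le hint (val_int_le A.valuation γ))
  have h3 : A.valuation (4 * xc Q - (P.a : Qb) ^ P.p) ≤ 1 := by
    refine (Valuation.map_sub _ _ _).trans (max_le ?_ ?_)
    · rw [map_mul]
      have : A.valuation (4 : Qb) ≤ 1 := by exact_mod_cast val_nat_le A.valuation 4
      exact mul_le_one' this hint
    · rw [map_pow]
      exact pow_le_one' (val_int_le A.valuation _) _
  have h4 : A.valuation (xc Q) * A.valuation (4 * xc Q - (P.a : Qb) ^ P.p) *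
      A.valuation (xc Q + γ) = 1 := by
    rw [← map_mul, ← map_mul, ← hpsq]
    rcases Q with _ | ⟨x, y, h⟩
    · exact absurd rfl hQ0
    · rw [psq_eq P hγ h]; rfl
  constructor
  · by_contra hlt
    push Not at hlt
    have h5 : A.valuation (xc Q) * A.valuation (4 * xc Q - (P.a : Qb) ^ P.p) *
        A.valuation (xc Q + γ) < 1 :=
      mul_lt_one_of_lt_of_le (mul_lt_one_of_lt_of_le hlt h3) h2
    rw [h4] at h5
    exact lt_irrefl _ h5
  · by_contra hlt
    push Not at hlt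
    have h5 : A.valuation (xc Q) * A.valuation (4 * xc Q - (P.a : Qb) ^ P.p) *
        A.valuation (xc Q + γ) < 1 := by
      rw [mul_comm]
      exact mul_lt_one_of_lt_of_le hlt (mul_le_one' hint h3)
    rw [h4] at h5
    exact lt_irrefl _ h5

end

/-- a rational number which is nowhere small is small at infinity -/
theorem abs_le_one {r : ℚ} (h : ∀ q : ℕ, q.Prime → ∃ A : ValuationSubring Qb,
    A.LiesOverPrime q ∧ 1 ≤ A.valuation (algebraMap ℚ Qb r)) : |r| ≤ 1 := by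
  have hr0 : r ≠ 0 := by
    rintro rfl
    obtain ⟨A, hA, h1⟩ := h 2 Nat.prime_two
    rw [_root_.map_zero, _root_.map_zero] at h1
    exact absurd h1 (not_le.2 zero_lt_one)
  have hnum : r.num.natAbs = 1 := by
    by_contra hne
    obtain ⟨q, hq, hqd⟩ := Nat.exists_prime_and_dvd hne
    obtain ⟨A, hA, h1⟩ := h q hq
    have hv : A.valuation (q : Qb) < 1 := hA
    have hqn : (q : ℤ) ∣ r.num := Int.natCast_dvd.2 hqd
    have hqd' : ¬ (q : ℤ) ∣ (r.den : ℤ) := by
      intro h2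
      have h3 : q ∣ r.den := by exact_mod_cast h2
      have h4 := Nat.dvd_gcd hqd h3
      rw [r.reduced.gcd_eq_one] at h4
      exact hq.one_lt.ne' (Nat.dvd_one.1 h4)
    have h5 := val_int_lt A.valuation hv hqn
    have h6 := val_int_eq_one_of_not_dvd A.valuation hq hv hqd'
    rw [Int.cast_natCast] at h6
    rw [map_rat_eq, map_div₀, h6, div_one] at h1
    exact absurd h1 (not_le.2 h5)
  have h1 : |(r.num : ℚ)| = 1 := by
    rw [← Int.cast_abs, Int.abs_eq_natAbs, hnum]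
    norm_num
  rw [← Rat.num_div_den r, abs_div, h1, Nat.abs_cast]
  have : (1 : ℚ) ≤ r.den := by exact_mod_cast r.pos
  exact (div_le_one (by linarith)).2 this

section arch

variable {N : AddSubgroup (P.freyCurve⁄Qb).Point}

theorem prod_sub_rational {S : Finset Qb}
    (hS : ∀ x, x ∈ S ↔ ∃ Q ∈ N, Q ≠ 0 ∧ xc Q = x)
    (hstab : ∀ σ : Qb ≃ₐ[ℚ] Qb, ∀ Q ∈ N, σ • Q ∈ N) (e : ℤ) :
    ∃ r : ℚ, ∏ x ∈ S, (x + (e : Qb)) = algebraMap ℚ Qb r := by
  classical
  have h : ∏ x ∈ S, (x + (e : Qb)) ∈ Set.range (algebraMap ℚ Qb) := by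
    rw [InfiniteGalois.mem_range_algebraMap_iff_fixed]
    intro σ
    rw [map_prod]
    have himg : S.image σ = S := by
      apply Finset.eq_of_subset_of_card_le
      · intro x hx
        obtain ⟨x', hx', rfl⟩ := Finset.mem_image.mp hx
        obtain ⟨Q, hQ, hQ0, rfl⟩ := (hS x').mp hx'
        rw [hS]
        refine ⟨σ • Q, hstab σ Q hQ, ?_, xc_smul σ hQ0⟩
        intro h0
        apply hQ0
        have h1 : σ⁻¹ • (σ • Q) = σ⁻¹ • (0 : (P.freyCurve⁄Qb).Point) := congrArg (σ⁻¹ • ·) h0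
        rw [inv_smul_smul] at h1
        exact h1
      · rw [Finset.card_image_of_injective _ σ.injective]
    conv_rhs => rw [← himg]
    rw [Finset.prod_image (fun _ _ _ _ h => σ.injective h)]
    refine Finset.prod_congr rfl fun x _ => ?_
    rw [map_add, map_intCast]
  obtain ⟨r, hr⟩ := h
  exact ⟨r, hr.symm⟩

theorem re_of_fixed {z : Qb} (h : complexConjugation z = z) :
    complexEmbedding z = ((complexEmbedding z).re : ℂ) := by
  have h1 := complexEmbedding_complexConjugation z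
  rw [h] at h1
  exact (Complex.conj_eq_iff_real.1 h1.symm).elim fun r hr => by rw [hr, Complex.ofReal_re]

/-- duplication, in the real case -/
theorem sign_aux {r t x y x' y' : Qb} (M : TModel (P.freyCurve⁄Qb) r t)
    (h : (P.freyCurve⁄Qb).Nonsingular x y) (h' : (P.freyCurve⁄Qb).Nonsingular x' y')
    (he : (Point.some x y h : (P.freyCurve⁄Qb).Point) + Point.some x y h = Point.some x' y' h')
    (hr : complexConjugation r = r) (hA : complexConjugation (tA4 (P.freyCurve⁄Qb) r t) =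
      tA4 (P.freyCurve⁄Qb) r t) (hx : complexConjugation x = x)
    (hx' : complexConjugation x' = x') :
    (complexConjugation y = y → 0 ≤ (complexEmbedding (x' - r)).re) ∧
    (complexConjugation y = -y - x → (complexEmbedding (x' - r)).re ≤ 0) := by
  have h1 := dup_T M h h' he
  have ha1 := freyQ_a₁ P
  have ha3 := freyQ_a₃ P
  rw [ha1, ha3, one_mul, add_zero] at h1
  have h2 := congrArg complexEmbedding h1
  rw [map_mul, map_pow, map_pow] at h2
  have hR : complexEmbedding (x' - r) = ((complexEmbedding (x' - r)).re : ℂ) :=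
    re_of_fixed (by rw [map_sub, hx', hr])
  have hS : complexEmbedding ((x - r) ^ 2 - tA4 (P.freyCurve⁄Qb) r t) =
      ((complexEmbedding ((x - r) ^ 2 - tA4 (P.freyCurve⁄Qb) r t)).re : ℂ) :=
    re_of_fixed (by rw [map_sub, map_pow, map_sub, hx, hr, hA])
  set R := (complexEmbedding (x' - r)).re
  set T := (complexEmbedding ((x - r) ^ 2 - tA4 (P.freyCurve⁄Qb) r t)).re
  set ψ := complexEmbedding (2 * y + x) with hψ
  rw [hR, hS] at h2
  have hψ0 : ψ ≠ 0 := by
    intro h0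
    have h3 : 2 * y + x = 0 := by
      have := complexEmbedding.toRingHom.injective
      apply this
      change complexEmbedding _ = complexEmbedding _
      rw [_root_.map_zero]
      exact h0
    have hy : y = (P.freyCurve⁄Qb).negY x y := by
      rw [negY]
      have e1 : (toAffine (P.freyCurve⁄Qb)).a₁ = 1 := ha1
      have e3 : (toAffine (P.freyCurve⁄Qb)).a₃ = 0 := ha3
      rw [e1, e3]
      linear_combination h3
    have h4 : (Point.some x y h : (P.freyCurve⁄Qb).Point) + Point.some x y h = 0 :=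
      Point.add_of_Y_eq rfl hy
    rw [he] at h4
    exact Point.some_ne_zero _ h4
  constructor
  · intro hy
    have h3 : ψ = (ψ.re : ℂ) := re_of_fixed (by rw [map_add, map_mul, hy, hx, map_ofNat])
    rw [h3] at h2 hψ0
    have h4 : R * ψ.re ^ 2 = T ^ 2 := by exact_mod_cast h2
    have h5 : ψ.re ≠ 0 := by exact_mod_cast hψ0
    have h6 : 0 < ψ.re ^ 2 := by positivity
    by_contra hlt
    push Not at hlt
    nlinarith [sq_nonneg T, mul_neg_of_neg_of_pos hlt h6]
  · intro hy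
    have h3 : (starRingEnd ℂ) ψ = -ψ := by
      rw [hψ, ← complexEmbedding_complexConjugation, map_add, map_mul, hy, hx, map_ofNat, ← map_neg]
      congr 1
      ring
    have hre : ψ.re = 0 := by
      have := congrArg Complex.re h3
      rw [Complex.conj_re, Complex.neg_re] at this
      linarith
    have h4 : ψ ^ 2 = ((-(ψ.im ^ 2) : ℝ) : ℂ) := by
      apply Complex.ext
      · rw [sq, Complex.mul_re, hre, Complex.ofReal_re]; ring
      · rw [sq, Complex.mul_im, hre, Complex.ofReal_im]; ring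
    have him : ψ.im ≠ 0 := by
      intro h0
      exact hψ0 (Complex.ext hre h0)
    rw [h4] at h2
    have h5 : R * (-(ψ.im ^ 2)) = T ^ 2 := by exact_mod_cast h2
    have h6 : 0 < ψ.im ^ 2 := by positivity
    by_contra hlt
    push Not at hlt
    nlinarith [sq_nonneg T, mul_pos hlt h6]

/-- complex conjugation acts as `± 1` on the line -/
theorem conj_dich (hNcard : Nat.card N = P.p)
    (hstab : ∀ σ : Qb ≃ₐ[ℚ] Qb, ∀ x ∈ N, σ • x ∈ N) :
    (∀ Q ∈ N, complexConjugation • Q = Q) ∨ (∀ Q ∈ N, complexConjugation • Q = -Q) := by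
  by_cases h : ∃ Q ∈ N, Q ≠ 0 ∧ complexConjugation • Q = Q
  · left
    obtain ⟨Q, hQ, hQ0, hc⟩ := h
    intro Q' hQ'
    obtain ⟨k, -, rfl⟩ := exists_nsmul_eq P.pp hNcard hQ hQ0 hQ'
    have := algEquiv_smul_zsmul complexConjugation (k : ℤ) Q
    rw [natCast_zsmul, natCast_zsmul] at this
    rw [this, hc]
  · right
    push Not at h
    intro Q hQ
    have hcc : complexConjugation • (complexConjugation • Q) = Q := by
      rw [← mul_smul, complexConjugation_mul_self, one_smul]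
    have h1 : complexConjugation • (complexConjugation • Q + Q) = complexConjugation • Q + Q := by
      have e : complexConjugation • (complexConjugation • Q + Q) =
          complexConjugation • (complexConjugation • Q) + complexConjugation • Q :=
        map_add (Point.map (W' := P.freyCurve) complexConjugation.toAlgHom) _ _
      rw [e, hcc, add_comm]
    by_contra hne
    have h2 : complexConjugation • Q + Q ≠ 0 := by
      intro h3
      exact hne (eq_neg_of_add_eq_zero_left h3)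
    exact h _ (add_mem (hstab _ Q hQ) hQ) h2 h1

theorem tmodel0 {γ : ℤ} (hγ : P.b ^ P.p = 4 * γ) : TModel (P.freyCurve⁄Qb) 0 0 ∧
    complexConjugation (tA4 (P.freyCurve⁄Qb) 0 0) = tA4 (P.freyCurve⁄Qb) 0 0 := by
  refine ⟨⟨?_, ?_⟩, ?_⟩
  · rw [equation_iff]
    have h1 : (toAffine (P.freyCurve⁄Qb)).a₃ = 0 := freyQ_a₃ P
    have h6 : (toAffine (P.freyCurve⁄Qb)).a₆ = 0 := freyQ_a₆ P
    rw [h6]
    ring
  · rw [freyQ_a₃]; ring
  · rw [tA4, freyQ_a₂ P hγ, freyQ_a₄ P hγ, freyQ_a₁]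
    simp only [map_sub, map_add, map_mul, map_div₀, map_neg, map_pow, map_intCast, map_ofNat,
      map_one, _root_.map_zero]

theorem tmodel1 {γ : ℤ} (hγ : P.b ^ P.p = 4 * γ) :
    TModel (P.freyCurve⁄Qb) (-(γ : Qb)) ((γ : Qb) / 2) ∧
    complexConjugation (tA4 (P.freyCurve⁄Qb) (-(γ : Qb)) ((γ : Qb) / 2)) =
      tA4 (P.freyCurve⁄Qb) (-(γ : Qb)) ((γ : Qb) / 2) := by
  refine ⟨⟨?_, ?_⟩, ?_⟩
  · rw [equation_iff]
    have h1 : (toAffine (P.freyCurve⁄Qb)).a₁ = 1 := freyQ_a₁ P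
    have h2 : (toAffine (P.freyCurve⁄Qb)).a₂ = (4 * (γ : Qb) - 1 - (P.a : Qb) ^ P.p) / 4 :=
      freyQ_a₂ P hγ
    have h3 : (toAffine (P.freyCurve⁄Qb)).a₃ = 0 := freyQ_a₃ P
    have h4 : (toAffine (P.freyCurve⁄Qb)).a₄ = -((P.a : Qb) ^ P.p * γ) / 4 := freyQ_a₄ P hγ
    have h6 : (toAffine (P.freyCurve⁄Qb)).a₆ = 0 := freyQ_a₆ P
    rw [h1, h2, h3, h4, h6]
    ring
  · rw [freyQ_a₃, freyQ_a₁]; ring
  · rw [tA4, freyQ_a₂ P hγ, freyQ_a₄ P hγ, freyQ_a₁]
    simp only [map_sub, map_add, map_mul, map_div₀, map_neg, map_pow, map_intCast, map_ofNat,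
      map_one]

/-- **the real position of the line** -/
theorem line_real (hNV : N ≤ tors (P.freyCurve⁄Qb) P.p) (hNcard : Nat.card N = P.p)
    (hstab : ∀ σ : Qb ≃ₐ[ℚ] Qb, ∀ x ∈ N, σ • x ∈ N) {γ : ℤ} (hγ : P.b ^ P.p = 4 * γ)
    (h8 : 8 ≤ |γ|) : ∃ e : ℤ, (e = 0 ∨ e = γ) ∧
      ∀ Q ∈ N, Q ≠ 0 → 8 ≤ ‖complexEmbedding (xc Q + e)‖ := by
  obtain ⟨T0, A0⟩ := tmodel0 P hγ
  obtain ⟨T1, A1⟩ := tmodel1 P hγ
  have hr1 : complexConjugation (-(γ : Qb)) = -(γ : Qb) := by rw [map_neg, map_intCast]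
  have hr0 : complexConjugation (0 : Qb) = 0 := _root_.map_zero _
  -- halving
  have hhalf : ∀ Q' ∈ N, ∃ Q ∈ N, Q + Q = Q' := by
    intro Q' hQ'
    obtain ⟨m, hm⟩ := P.hp_odd
    refine ⟨(m + 1) • Q', nsmul_mem hQ' _, ?_⟩
    rw [← add_nsmul]
    have e : m + 1 + (m + 1) = P.p + 1 := by omega
    rw [e, add_nsmul, one_nsmul]
    have : P.p • Q' = 0 := hNV hQ'
    rw [this, zero_add]
  have h4 : (γ : ℝ) ≤ -8 ∨ 8 ≤ (γ : ℝ) := by
    rcases le_abs.1 h8 with h | h
    · right; exact_mod_cast h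
    · left
      have : γ ≤ -8 := by linarith
      exact_mod_cast this
  have hg : complexEmbedding ((γ : Qb)) = (γ : ℂ) := map_intCast _ _
  have hnorm : ∀ z : Qb, 8 ≤ |(complexEmbedding z).re| → 8 ≤ ‖complexEmbedding z‖ :=
    fun z h => h.trans (Complex.abs_re_le_norm _)
  rcases conj_dich P hNcard hstab with hc | hc
  · -- real points
    have key : ∀ Q ∈ N, Q ≠ 0 → 0 ≤ (complexEmbedding (xc Q)).re ∧
        0 ≤ (complexEmbedding (xc Q + γ)).re := by
      intro Q' hQ' hQ'0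
      obtain ⟨Q, hQ, hQQ⟩ := hhalf Q' hQ'
      have h1 := hc Q hQ
      have h2 := hc Q' hQ'
      rcases Q with _ | ⟨x, y, h⟩
      · exact absurd hQQ.symm (by rw [← Point.zero_def, add_zero]; exact hQ'0)
      rcases Q' with _ | ⟨x', y', h'⟩
      · exact absurd rfl hQ'0
      rw [smul_some, Point.some.injEq] at h1 h2
      have s0 := (sign_aux P T0 h h' hQQ hr0 A0 h1.1 h2.1).1 h1.2
      have s1 := (sign_aux P T1 h h' hQQ hr1 A1 h1.1 h2.1).1 h1.2
      rw [sub_zero] at s0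
      rw [sub_neg_eq_add] at s1
      exact ⟨s0, s1⟩
    rcases h4 with h4 | h4
    · refine ⟨0, Or.inl rfl, fun Q hQ hQ0 => hnorm _ ?_⟩
      obtain ⟨k1, k2⟩ := key Q hQ hQ0
      rw [map_add, hg, Complex.add_re, Complex.intCast_re] at k2
      rw [Int.cast_zero, add_zero]
      exact le_abs.2 (Or.inl (by linarith))
    · refine ⟨γ, Or.inr rfl, fun Q hQ hQ0 => hnorm _ ?_⟩
      obtain ⟨k1, k2⟩ := key Q hQ hQ0
      rw [map_add, hg, Complex.add_re, Complex.intCast_re]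
      exact le_abs.2 (Or.inl (by linarith))
  · have key : ∀ Q ∈ N, Q ≠ 0 → (complexEmbedding (xc Q)).re ≤ 0 ∧
        (complexEmbedding (xc Q + γ)).re ≤ 0 := by
      intro Q' hQ' hQ'0
      obtain ⟨Q, hQ, hQQ⟩ := hhalf Q' hQ'
      have h1 := hc Q hQ
      have h2 := hc Q' hQ'
      rcases Q with _ | ⟨x, y, h⟩
      · exact absurd hQQ.symm (by rw [← Point.zero_def, add_zero]; exact hQ'0)
      rcases Q' with _ | ⟨x', y', h'⟩
      · exact absurd rfl hQ'0
      rw [smul_some, Point.neg_some, Point.some.injEq, negY] at h1 h2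
      have e1 : (toAffine (P.freyCurve⁄Qb)).a₁ = 1 := freyQ_a₁ P
      have e3 : (toAffine (P.freyCurve⁄Qb)).a₃ = 0 := freyQ_a₃ P
      rw [e1, e3, one_mul, sub_zero] at h1 h2
      have s0 := (sign_aux P T0 h h' hQQ hr0 A0 h1.1 h2.1).2 h1.2
      have s1 := (sign_aux P T1 h h' hQQ hr1 A1 h1.1 h2.1).2 h1.2
      rw [sub_zero] at s0
      rw [sub_neg_eq_add] at s1
      exact ⟨s0, s1⟩
    rcases h4 with h4 | h4
    · refine ⟨γ, Or.inr rfl, fun Q hQ hQ0 => hnorm _ ?_⟩
      obtain ⟨k1, k2⟩ := key Q hQ hQ0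
      rw [map_add, hg, Complex.add_re, Complex.intCast_re]
      exact le_abs.2 (Or.inr (by linarith))
    · refine ⟨0, Or.inl rfl, fun Q hQ hQ0 => hnorm _ ?_⟩
      obtain ⟨k1, k2⟩ := key Q hQ hQ0
      rw [map_add, hg, Complex.add_re, Complex.intCast_re] at k2
      rw [Int.cast_zero, add_zero]
      exact le_abs.2 (Or.inr (by linarith))

end arch

/-- **S12 from the symmetric form of Mazur's theorem** -/
theorem main12 (hs : Sym P.p) (h17 : 17 ≤ P.p) :
    ¬ HasGaloisStableCofixedLine (K := AlgebraicClosure ℚ) ℚ P.freyCurve P.p := by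
  intro hline
  obtain ⟨N, hNV, hNcard, hVcard, hstab, hcof⟩ := exists_line P hline
  obtain ⟨γ, hγ, h8⟩ := exists_gamma P
  obtain ⟨e, he, hbig⟩ := line_real P hNV hNcard hstab hγ h8
  have hfinN : Finite N := Nat.finite_of_card_ne_zero (by rw [hNcard]; exact P.pp.ne_zero)
  obtain ⟨S, hS⟩ := exists_xset hfinN
  obtain ⟨r, hr⟩ := prod_sub_rational P hS hstab e
  have h1 : |r| ≤ 1 := by
    refine abs_le_one fun q hq => ?_
    obtain ⟨A, hA⟩ := Places.exists_liesOverPrime Qb hq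
    refine ⟨A, hA, ?_⟩
    rw [← hr, map_prod]
    refine Finset.one_le_prod' fun x hx => ?_
    obtain ⟨Q, hQ, hQ0, rfl⟩ := (hS x).1 hx
    obtain ⟨k1, k2⟩ := one_le_val P hs h17 hNV hNcard hVcard hstab hcof hγ hq hA hQ hQ0
    rcases he with rfl | rfl
    · rw [Int.cast_zero, add_zero]; exact k1
    · exact k2
  have hN0 : ∃ Q ∈ N, Q ≠ 0 := by
    by_contra hcon
    push Not at hcon
    have : N = ⊥ := by
      rw [eq_bot_iff]; intro x hx; rw [AddSubgroup.mem_bot]; exact hcon x hx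
    rw [this] at hNcard
    simp at hNcard
    exact P.pp.one_lt.ne hNcard
  obtain ⟨Q, hQ, hQ0⟩ := hN0
  have hmem : xc Q ∈ S := (hS _).2 ⟨Q, hQ, hQ0, rfl⟩
  have hcard : S.card ≠ 0 := (Finset.card_pos.2 ⟨_, hmem⟩).ne'
  have h2 : (8 : ℝ) ^ S.card ≤ ‖complexEmbedding (∏ x ∈ S, (x + (e : Qb)))‖ := by
    rw [map_prod, norm_prod, ← Finset.prod_const]
    refine Finset.prod_le_prod (fun _ _ => by norm_num) fun x hx => ?_
    obtain ⟨Q, hQ, hQ0, rfl⟩ := (hS x).1 hx
    exact hbig Q hQ hQ0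
  have h3 : (8 : ℝ) ≤ 8 ^ S.card := le_self_pow₀ (by norm_num) hcard
  rw [hr] at h2
  have h4 : complexEmbedding (algebraMap ℚ Qb r) = (r : ℂ) := by
    rw [eq_ratCast, map_ratCast]
  have h5 : ‖(r : ℂ)‖ ≤ 1 := by
    rw [Complex.norm_ratCast]
    exact_mod_cast h1
  rw [h4] at h2
  linarith

end Fermat.Agent.Maz12
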