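import Fermat.Agent.Maz12.Loc
import Fermat.Agent.EC.StableEx

/-!
# The cofixed line of the Frey curve
-/

set_option autoImplicit false
set_option linter.unusedSectionVars false
set_option linter.style.haveILetI false

noncomputable section

namespace Fermat.Agent.Maz12

open WeierstrassCurve WeierstrassCurve.Affine WeierstrassCurve.Affine.Point
open Fermat.Agent.EC Fermat.Agent.CL Fermat.Agent.Mz

local notation "Qb" => AlgebraicClosure ℚ

variable (P : FreyPackage)

/-- the cofixed line as a subgroup -/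
theorem exists_line (h : HasGaloisStableCofixedLine (K := AlgebraicClosure ℚ) ℚ P.freyCurve P.p) :
    ∃ N : AddSubgroup (P.freyCurve⁄Qb).Point, N ≤ tors (P.freyCurve⁄Qb) P.p ∧
      Nat.card N = P.p ∧ Nat.card (tors (P.freyCurve⁄Qb) P.p) = P.p ^ 2 ∧
      (∀ σ : Qb ≃ₐ[ℚ] Qb, ∀ x ∈ N, σ • x ∈ N) ∧
      ∀ σ : Qb ≃ₐ[ℚ] Qb, ∀ x ∈ tors (P.freyCurve⁄Qb) P.p, σ • x - x ∈ N := by
  have hp := P.pp
  have hp2 : P.p ≠ 2 := by have := P.hp5; omega
  have hodd : Odd P.p := P.hp_odd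
  have hp0 : ((P.p : ℕ) : Qb) ≠ 0 := Nat.cast_ne_zero.mpr hp.ne_zero
  obtain ⟨N, hstab, hN0, hN1, hcof⟩ := h
  -- the subgroup of points
  let ι : (Submodule.torsionBy ℤ (P.freyCurve⁄Qb).Point P.p) →+
    (P.freyCurve⁄Qb).Point := (Submodule.subtype _).toAddMonoidHom
  have hι : Function.Injective ι := Subtype.val_injective
  let N' : AddSubgroup (P.freyCurve⁄Qb).Point := N.toAddSubgroup.map ι
  set V := Fermat.Agent.EC.tors (P.freyCurve⁄Qb) P.p with hV
  have hmemV : ∀ Q, Q ∈ V ↔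
      Q ∈ Submodule.torsionBy ℤ (P.freyCurve⁄Qb).Point P.p := by
    intro Q
    rw [hV, Fermat.Agent.EC.mem_tors, Submodule.mem_torsionBy_iff, natCast_zsmul]
  have hNV : N' ≤ V := by
    rintro _ ⟨x, _, rfl⟩
    exact (hmemV _).mpr x.2
  have hfin := Fermat.Agent.EC.finite_torsion (W := P.freyCurve⁄Qb) hodd hp0
  have hfinV : Finite V := hfin.1
  have hcardV : Nat.card V ≤ P.p ^ 2 := hfin.2
  have hN'0 : N' ≠ ⊥ := by
    intro h
    apply hN0
    rw [eq_bot_iff]
    intro x hx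
    have h1 : ι x ∈ N' := ⟨x, hx, rfl⟩
    rw [h, AddSubgroup.mem_bot] at h1
    rw [Submodule.mem_bot]
    exact hι (by rw [h1, _root_.map_zero])
  have hN'1 : N' ≠ V := by
    intro h
    apply hN1
    rw [eq_top_iff]
    intro x _
    have h1 : ι x ∈ N' := by rw [h]; exact (hmemV _).mpr x.2
    obtain ⟨y, hy, hyx⟩ := h1
    rw [← hι hyx]
    exact hy
  obtain ⟨hc1, hc2⟩ := Fermat.Agent.EC.card_line hp hNV (fun x hx => hx) hfinV hcardV hN'0 hN'1
  refine ⟨N', hNV, hc1, hc2, ?_, ?_⟩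
  · rintro σ _ ⟨x, hx, rfl⟩
    exact ⟨σ • x, hstab σ x hx, rfl⟩
  · intro σ x hx
    exact ⟨σ • (⟨x, (hmemV x).1 hx⟩ : Submodule.torsionBy ℤ (P.freyCurve⁄Qb).Point P.p) -
      ⟨x, (hmemV x).1 hx⟩, hcof σ _, rfl⟩

section K

variable {K : Type*} [Field K] [CharZero K] [Algebra ℚ K]
    [DecidableEq K] [IsGalois ℚ K] [IsAlgClosed K]

/-- a stable line lies in the kernel of reduction at `p` -/
theorem line_p {N : AddSubgroup (P.freyCurve⁄K).Point}
    (hNV : N ≤ tors (P.freyCurve⁄K) P.p) (hNcard : Nat.card N = P.p)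
    (hVcard : Nat.card (tors (P.freyCurve⁄K) P.p) = P.p ^ 2)
    (hstab : ∀ σ : K ≃ₐ[ℚ] K, ∀ x ∈ N, σ • x ∈ N) {A : ValuationSubring K}
    (hA : A.LiesOverPrime P.p) {Q : (P.freyCurve⁄K).Point} (hQ : Q ∈ N) (hQ0 : Q ≠ 0) :
    1 < A.valuation (xc Q) := by
  have hp := P.pp
  have hp2 : P.p ≠ 2 := by have := P.hp5; omega
  set V := tors (P.freyCurve⁄K) P.p with hV
  have hfinN : Finite N := Nat.finite_of_card_ne_zero (by rw [hNcard]; exact hp.ne_zero)
  have hfinV : Finite V :=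
    Nat.finite_of_card_ne_zero (by rw [hVcard]; exact pow_ne_zero 2 hp.ne_zero)
  have hN0 : ∃ Q ∈ N, Q ≠ 0 := ⟨Q, hQ, hQ0⟩
  obtain ⟨S, hS⟩ := exists_xset hfinN
  obtain ⟨r, hr⟩ := prod_xset_rational hS hstab
  have hden : P.p ∣ r.den := by
    by_contra hden
    have htop := Places.eq_top_of_inertia_le (fixSub N) (isOpen_fixSub hfinN) (by
      intro q hq A hA τ hτ
      have hv : A.valuation (q : K) < 1 := hA
      obtain ⟨E0, E1, hE, hE1, hloc⟩ := frey_local P A.valuation hq hv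
      obtain ⟨H1, H2⟩ := hloc τ (isInert_of_mem A hτ)
      by_cases hqp : q = P.p
      · subst hqp
        rcases line_dichotomy hp hNcard E1 with h | h
        · exact fix_line (τ := Point.map τ.toAlgHom) hp hNcard hNV (hstab τ) H1 H2 h
        · exfalso
          apply hden
          refine (line_formal_iff hp hv hN0 hS hr (Or.inr ?_)).mp ?_
          · intro Q hQ hQ0
            exact (hE1 Q hQ0).mp (h hQ)
          · intro Q hQ hQ0
            exact (hE1 Q hQ0).mp (h hQ)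
      · have hvp : A.valuation (P.p : K) = 1 := by
          have : ¬ (q : ℤ) ∣ (P.p : ℤ) := by
            intro h
            rw [Int.natCast_dvd_natCast, Nat.prime_dvd_prime_iff_eq hq P.pp] at h
            exact hqp h
          exact_mod_cast val_int_eq_one_of_not_dvd A.valuation hq hv this
        have hE1V : ∀ x ∈ V, x ∈ E1 → x = 0 := by
          intro x hx hxE
          by_contra hx0
          have h1 := (hE1 x hx0).mp hxE
          rcases x with _ | ⟨x, y, h⟩
          · exact hx0 rfl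
          · have h2 := (frey_isInt P A.valuation).torsion_integral P.hp_odd hvp h hx
            exact absurd h2 (not_le.mpr h1)
        exact fix_line (τ := Point.map τ.toAlgHom) hp hNcard hNV (hstab τ) H1 H2
          (fun x hx h => hE1V x (hNV hx) h))
    have : ∀ σ : K ≃ₐ[ℚ] K, σ • Q = Q := by
      intro σ
      have : σ ∈ fixSub N := by rw [htop]; trivial
      exact this Q hQ
    exact frey_no_fixed_point P hQ0 (hNV hQ) this
  have hv : A.valuation (P.p : K) < 1 := hA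
  obtain ⟨E0, E1, hE, hE1, hloc⟩ := frey_local P A.valuation hp hv
  have hdich : (∀ Q ∈ N, Q ≠ 0 → A.valuation (xc Q) ≤ 1) ∨
      (∀ Q ∈ N, Q ≠ 0 → 1 < A.valuation (xc Q)) := by
    rcases line_dichotomy hp hNcard E1 with h | h
    · left
      intro Q hQ hQ0
      by_contra hlt
      push Not at hlt
      exact hQ0 (h Q hQ ((hE1 Q hQ0).mpr hlt))
    · right
      intro Q hQ hQ0
      exact (hE1 Q hQ0).mp (h hQ)
  exact (line_formal_iff hp hv hN0 hS hr hdich).mpr hden Q hQ hQ0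

variable {Γ₀ : Type*} [LinearOrderedCommGroupWithZero Γ₀] (v : Valuation K Γ₀)

omit [IsGalois ℚ K] in
/-- bad primes -/
theorem frey_bad {q : ℕ} (hq : q.Prime) (hv : v (q : K) < 1)
    (habc : (q : ℤ) ∣ P.a * P.b * P.c) : ∃ (r t : ℚ) (tp tm : K),
      MultT v (P.freyCurve⁄K) (algebraMap ℚ K r) (algebraMap ℚ K t) tp tm := by
  have hqi := Nat.prime_iff_prime_int.mp hq
  by_cases hq2 : q = 2
  · subst hq2
    obtain ⟨tp, tm, M⟩ := frey_MultT0 P v hq hv (dvd_mul_of_dvd_right (frey_two_dvd_b P) _)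
      (frey_two_hm P v hv)
    exact ⟨0, 0, tp, tm, M⟩
  have h2 : v (2 : K) = 1 := by
    have : ¬ (q : ℤ) ∣ ((2 : ℕ) : ℤ) := by
      intro h
      rw [Int.natCast_dvd_natCast, Nat.prime_dvd_prime_iff_eq hq Nat.prime_two] at h
      exact hq2 h
    exact_mod_cast val_int_eq_one_of_not_dvd v hq hv this
  have h16 : v (algebraMap ℚ K 16) = 1 := by
    rw [map_ofNat, show (16 : K) = 2 * 2 * 2 * 2 by norm_num, map_mul, map_mul, map_mul, h2,
      one_mul, one_mul, one_mul]
  rcases hqi.dvd_or_dvd habc with hab | hc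
  · have hm : v (tA4 (P.freyCurve⁄K) (algebraMap ℚ K 0) (algebraMap ℚ K 0)) < 1 := by
      rw [frey_T0_A4]
      have e : P.freyCurve.a₄ = -(((P.a * P.b : ℤ) : ℚ)) ^ P.p / 16 := by
        simp only [FreyPackage.freyCurve]
        push_cast
        ring
      rw [e, map_div₀, map_div₀, h16, div_one, map_neg, Valuation.map_neg, map_pow, map_pow]
      refine pow_lt_one₀ zero_le ?_ P.hp0
      rw [map_intCast]
      exact val_int_lt v hv hab
    obtain ⟨tp, tm, M⟩ := frey_MultT0 P v hq hv hab hm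
    exact ⟨0, 0, tp, tm, M⟩
  · have hm : v (tA4 (P.freyCurve⁄K) (algebraMap ℚ K (P.a ^ P.p / 4))
        (algebraMap ℚ K (- P.a ^ P.p / 8))) < 1 := by
      rw [tA4_baseChange, frey_TC_A4, map_div₀, map_div₀, h16, div_one, map_mul, map_mul,
        map_pow, map_pow, map_pow, map_pow]
      refine lt_of_le_of_lt (mul_le_of_le_one_left' ?_) ?_
      · rw [map_intCast]; exact pow_le_one' (val_int_le v _) _
      · refine pow_lt_one₀ zero_le ?_ P.hp0
        rw [map_intCast]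
        exact val_int_lt v hv hc
    obtain ⟨tp, tm, M⟩ := frey_MultTC P v hq hv hc h2 hm
    exact ⟨_, _, tp, tm, M⟩

omit [IsGalois ℚ K] [IsAlgClosed K] [DecidableEq K] in
/-- good primes -/
theorem frey_good {q : ℕ} (hq : q.Prime) (hv : v (q : K) < 1)
    (habc : ¬ (q : ℤ) ∣ P.a * P.b * P.c) : v (P.freyCurve⁄K).Δ = 1 := by
  have hq2 : q ≠ 2 := by
    rintro rfl
    exact habc (dvd_mul_of_dvd_left (dvd_mul_of_dvd_right (frey_two_dvd_b P) _) _)
  have h2 : v (2 : K) = 1 := by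
    have : ¬ (q : ℤ) ∣ ((2 : ℕ) : ℤ) := by
      intro h
      rw [Int.natCast_dvd_natCast, Nat.prime_dvd_prime_iff_eq hq Nat.prime_two] at h
      exact hq2 h
    exact_mod_cast val_int_eq_one_of_not_dvd v hq hv this
  have h1 : v ((P.a * P.b * P.c : ℤ) : K) = 1 := val_int_eq_one_of_not_dvd v hq hv habc
  rw [show (P.freyCurve⁄K).Δ = algebraMap ℚ K P.freyCurve.Δ from WeierstrassCurve.map_Δ _ _,
    frey_Δ]
  have e : ((P.a : ℚ) ^ P.p * (P.b : ℚ) ^ P.p * (P.c : ℚ) ^ P.p) ^ 2 / 2 ^ 8 =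
    ((P.a * P.b * P.c : ℤ) : ℚ) ^ (P.p * 2) / 2 ^ 8 := by
    push_cast
    ring
  rw [e, map_div₀, map_div₀, map_pow, map_pow, map_pow, map_pow, map_intCast, h1, map_ofNat,
    h2]
  simp

end K

end Fermat.Agent.Maz12
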