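import Fermat.Agent.Mz.Loc
import Fermat.Agent.EC.NoTorsion
import Fermat.Agent.EC.FreyRam
import Fermat.Agent.Places.Frobenius

/-!
# Torsion points and the identity component
-/

set_option autoImplicit false
set_option linter.unusedSectionVars false
set_option linter.style.haveILetI false

noncomputable section

namespace Fermat.Agent.Maz12

open WeierstrassCurve WeierstrassCurve.Affine WeierstrassCurve.Affine.Point
open Fermat.Agent.EC Fermat.Agent.CL Fermat.Agent.Mz

section pigeon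

variable {K : Type*} [Field K] [DecidableEq K] {Γ₀ : Type*} [LinearOrderedCommGroupWithZero Γ₀]
  {v : Valuation K Γ₀} {W : WeierstrassCurve K} {r t tp tm : K}

theorem class_lt (M : MultT v W r t tp tm) {p : ℕ} (hp : p.Prime) (hp2 : p ≠ 2)
    {P : W.toAffine.Point} (hP : p • P = 0) (D : InD v W r t tp P) :
    ∃ k : Fin p, v (xc P - r) ^ p = (v (tA4 W r t) ^ 2) ^ (k : ℕ) := by
  obtain ⟨x, y, h, rfl, h1, h2, h3⟩ := D
  obtain ⟨k, hk⟩ := M.class_prime hp hp2 hP ⟨x, y, h, rfl, h1, h2, h3⟩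
  rw [xc_some]
  have hm0 := M.m_pos
  have hm1 := M.hm
  set a := v (tA4 W r t)
  set u := v (x - r)
  have ha2 : 0 < a ^ 2 := pow_pos hm0 2
  have ha21 : a ^ 2 < 1 := pow_lt_one₀ zero_le hm1 two_ne_zero
  have hu1 : u ^ p < 1 := pow_lt_one₀ zero_le h2 hp.ne_zero
  have hk0 : 0 ≤ k := by
    by_contra hlt
    push Not at hlt
    have : (1 : Γ₀) ≤ (a ^ 2) ^ k := (one_le_zpow_iff_right_of_lt_one₀ ha2 ha21).2 hlt.le
    rw [← hk] at this
    exact absurd this (not_le.2 hu1)
  have hkp : k < p := by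
    by_contra hle
    push Not at hle
    have h4 : (a ^ 2) ^ k ≤ (a ^ 2) ^ (p : ℤ) :=
      (zpow_le_zpow_iff_right_of_lt_one₀ ha2 ha21).2 hle
    rw [← hk, zpow_natCast, ← pow_mul, mul_comm, pow_mul, sq] at h4
    have h5 : a ^ p < u ^ p := pow_lt_pow_left₀ h1 zero_le hp.ne_zero
    have h6 : a ^ p * a ^ p ≤ a ^ p := mul_le_of_le_one_left' (pow_le_one' hm1.le p)
    exact absurd (h4.trans h6) (not_le.2 h5)
  obtain ⟨n, rfl⟩ := Int.eq_ofNat_of_zero_le hk0
  refine ⟨⟨n, by exact_mod_cast hkp⟩, ?_⟩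
  rw [hk, zpow_natCast]

theorem sub_mem_E0_of_class (M : MultT v W r t tp tm) {p : ℕ} (hp : p.Prime)
    {P P' : W.toAffine.Point} (D : InD v W r t tp P) (D' : InD v W r t tp P') 
    (h : v (xc P - r) ^ p = v (xc P' - r) ^ p) : P - P' ∈ M.toIntT.E0 M.hm := by
  obtain ⟨x, y, hn, rfl, h1, h2, h3⟩ := D
  have D'' := M.neg_inD D'
  obtain ⟨x', y', hn', rfl, h1', h2', h3'⟩ := D'
  rw [xc_some, xc_some] at h
  have h4 : v (x - r) = v (x' - r) :=
    (pow_left_inj₀ zero_le zero_le hp.ne_zero).1 h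
  rw [sub_eq_add_neg]
  rw [Point.neg_some] at D'' ⊢
  exact M.opp_branch ⟨x, y, hn, rfl, h1, h2, h3⟩ D'' h4

/-- **`E[p]` meets the identity component.** -/
theorem exists_mem_E0 (M : MultT v W r t tp tm) {p : ℕ} (hp : p.Prime) (hp2 : p ≠ 2)
    {V : AddSubgroup W.toAffine.Point} (hV : ∀ P ∈ V, p • P = 0) (hcard : Nat.card V = p ^ 2) :
    ∃ P ∈ V, P ≠ 0 ∧ P ∈ M.toIntT.E0 M.hm := by
  classical
  by_contra hcon
  push Not at hcon
  let Rel : W.toAffine.Point → Option (Bool × Fin p) → Prop := fun P o =>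
    match o with
    | none => P = 0
    | Option.some (true, k) => InD v W r t tp P ∧ v (xc P - r) ^ p = (v (tA4 W r t) ^ 2) ^ (k : ℕ)
    | Option.some (false, k) => InD v W r t tm P ∧ v (xc P - r) ^ p = (v (tA4 W r t) ^ 2) ^ (k : ℕ)
  have hex : ∀ P : V, ∃ o, Rel P o := by
    intro P
    by_cases hP0 : (P : W.toAffine.Point) = 0
    · exact ⟨none, hP0⟩
    rcases M.multiples hp hp2 (hV _ P.2) (hcon _ P.2 hP0) 1 with h | h | h
    · rw [one_nsmul] at h
      exact absurd h hP0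
    · rw [one_nsmul] at h
      obtain ⟨k, hk⟩ := class_lt M hp hp2 (hV _ P.2) h
      exact ⟨Option.some (true, k), h, hk⟩
    · rw [one_nsmul] at h
      obtain ⟨k, hk⟩ := class_lt M.swap hp hp2 (hV _ P.2) h
      exact ⟨Option.some (false, k), h, hk⟩
  choose G hG using hex
  have hinj : Function.Injective G := by
    intro P P' h
    have h1 := hG P
    have h2 := hG P'
    rw [← h] at h2
    have key : (P : W.toAffine.Point) - P' ∈ M.toIntT.E0 M.hm → P = P' := by
      intro h3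
      by_contra hne
      have h4 : (P : W.toAffine.Point) - P' ≠ 0 := by
        rw [Ne, sub_eq_zero]
        exact fun h5 => hne (Subtype.ext h5)
      exact hcon _ (sub_mem P.2 P'.2) h4 h3
    rcases hGP : G P with _ | ⟨_ | _, k⟩
    · rw [hGP] at h1 h2
      exact Subtype.ext (h1.trans h2.symm)
    · rw [hGP] at h1 h2
      exact key (sub_mem_E0_of_class M.swap hp h1.1 h2.1 (h1.2.trans h2.2.symm))
    · rw [hGP] at h1 h2
      exact key (sub_mem_E0_of_class M hp h1.1 h2.1 (h1.2.trans h2.2.symm))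
  have h3 := Nat.card_le_card_of_injective G hinj
  rw [hcard] at h3
  have h4 : Nat.card (Option (Bool × Fin p)) = 2 * p + 1 := by
    rw [Nat.card_eq_fintype_card]
    simp
  rw [h4] at h3
  have h5 : 3 ≤ p := by have := hp.two_le; omega
  nlinarith

end pigeon

section count

theorem card_fix (κ : Type*) [Field κ] {q : ℕ} (hq : 1 < q) :
    Finite {a : κ // a ^ q = a} ∧ Nat.card {a : κ // a ^ q = a} ≤ q := by
  classical
  have hne : (Polynomial.X ^ q - Polynomial.X : Polynomial κ) ≠ 0 :=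
    FiniteField.X_pow_card_sub_X_ne_zero κ hq
  let f : {a : κ // a ^ q = a} → (Polynomial.X ^ q - Polynomial.X : Polynomial κ).roots.toFinset :=
    fun a => ⟨(a : κ), by
      rw [Multiset.mem_toFinset, Polynomial.mem_roots hne]
      simp [a.2]⟩
  have hf : Function.Injective f := fun a b h => by
    have h1 : (f a : κ) = f b := congrArg _ h
    exact Subtype.ext h1
  refine ⟨Finite.of_injective f hf, ?_⟩
  refine (Nat.card_le_card_of_injective f hf).trans ?_
  rw [Nat.card_eq_fintype_card, Fintype.card_coe]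
  refine (Multiset.toFinset_card_le _).trans ?_
  refine (Polynomial.card_roots' _).trans ?_
  rw [FiniteField.X_pow_card_sub_X_natDegree_eq κ hq]

variable {K : Type*} [Field K] [Algebra ℚ K] [DecidableEq K] {E : Affine ℚ}
  {A : ValuationSubring K} {φ : K ≃ₐ[ℚ] K} {q : ℕ}

theorem residue_frob (hφ : A.IsFrobeniusAt φ q) {x : K} (hx : x ∈ A) (h : φ x = x) :
    IsLocalRing.residue A ⟨x, hx⟩ ^ q = IsLocalRing.residue A ⟨x, hx⟩ := by
  rw [← hφ.smul_residue_eq]
  change IsLocalRing.residue A ((⟨φ, hφ.mem_decompositionSubgroup⟩ : A.decompositionSubgroup ℚ) •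
    (⟨x, hx⟩ : A)) = _
  congr 1
  exact Subtype.ext h

/-- counting points fixed by Frobenius -/
theorem card_le_of_frob (hq : 1 < q) (hφ : A.IsFrobeniusAt φ q) {G : AddSubgroup (E⁄K).Point}
    (hfix : ∀ P ∈ G, φ • P = P) (hint : ∀ x y h, (Point.some x y h : (E⁄K).Point) ∈ G →
      x ∈ A ∧ y ∈ A)
    (hinj : ∀ x y h x' y' h', (Point.some x y h : (E⁄K).Point) ∈ G →
      (Point.some x' y' h' : (E⁄K).Point) ∈ G → A.valuation (x - x') < 1 →
      A.valuation (y - y') < 1 → (Point.some x y h : (E⁄K).Point) = Point.some x' y' h') :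
    Nat.card G ≤ q ^ 2 + 1 := by
  classical
  set κ := IsLocalRing.ResidueField A
  obtain ⟨hfin, hcard⟩ := card_fix κ hq
  let Rel : (E⁄K).Point → Option ({a : κ // a ^ q = a} × {a : κ // a ^ q = a}) → Prop :=
    fun P o => (o = none ∧ P = 0) ∨ ∃ x y h hx hy hx' hy', P = Point.some x y h ∧
      o = Option.some (⟨IsLocalRing.residue A ⟨x, hx⟩, hx'⟩, ⟨IsLocalRing.residue A ⟨y, hy⟩, hy'⟩)
  have hex : ∀ P : G, ∃ o, Rel P o := by
    rintro ⟨P, hP⟩
    rcases P with _ | ⟨x, y, h⟩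
    · exact ⟨none, Or.inl ⟨rfl, rfl⟩⟩
    · obtain ⟨hx, hy⟩ := hint x y h hP
      have h1 := hfix _ hP
      rw [smul_some, Point.some.injEq] at h1
      exact ⟨_, Or.inr ⟨x, y, h, hx, hy, residue_frob hφ hx h1.1, residue_frob hφ hy h1.2, rfl, rfl⟩⟩
  choose f hf using hex
  have key : ∀ {a b : K} (ha : a ∈ A) (hb : b ∈ A),
      IsLocalRing.residue A ⟨a, ha⟩ = IsLocalRing.residue A ⟨b, hb⟩ → A.valuation (a - b) < 1 := by
    intro a b ha hb h
    rw [← sub_eq_zero, ← map_sub, IsLocalRing.residue_eq_zero_iff, A.valuation_lt_one_iff] at h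
    exact h
  have hinjf : Function.Injective f := by
    intro P P' h
    rcases hf P with ⟨h1, h2⟩ | ⟨x, y, hn, hx, hy, hx', hy', h1, h2⟩
    · rcases hf P' with ⟨h1', h2'⟩ | ⟨x', y', hn', hx'', hy'', hx''', hy''', h1', h2'⟩
      · exact Subtype.ext (h2.trans h2'.symm)
      · rw [← h, h1] at h2'
        exact absurd h2' (by simp)
    · rcases hf P' with ⟨h1', h2'⟩ | ⟨x', y', hn', hx'', hy'', hx''', hy''', h1', h2'⟩
      · rw [← h, h2] at h1'
        exact absurd h1' (by simp)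
      · rw [h, h2'] at h2
        simp only [Option.some.injEq, Prod.mk.injEq, Subtype.mk.injEq] at h2
        apply Subtype.ext
        rw [h1, h1']
        exact hinj _ _ _ _ _ _ (h1 ▸ P.2) (h1' ▸ P'.2) (key hx hx'' h2.1.symm)
          (key hy hy'' h2.2.symm)
  haveI := Fintype.ofFinite {a : κ // a ^ q = a}
  have h1 := Nat.card_le_card_of_injective f hinjf
  refine h1.trans ?_
  rw [Nat.card_eq_fintype_card] at hcard ⊢
  rw [Fintype.card_option, Fintype.card_prod, sq]
  gcongr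

theorem eq_zero_of_mem_E1' {W : WeierstrassCurve K} {Γ₀ : Type*} [LinearOrderedCommGroupWithZero Γ₀]
    {v : Valuation K Γ₀} {r t : K} (M : IntT v W r t)
    (hI : IsInt v W) {p : ℕ} (hp : Odd p) (hvp : v (p : K) = 1) {P : W.toAffine.Point}
    (hP : p • P = 0) (hP1 : P ∈ M.E1) : P = 0 := by
  rcases P with _ | ⟨x, y, h⟩
  · rfl
  · exfalso
    have h1 := hI.torsion_integral hp hvp h hP
    rw [M.mem_E1_some' h] at hP1
    exact absurd h1 (not_le.mpr hP1)

/-- good reduction: at most `q² + 1` points of a finite group of odd order fixed by Frobenius -/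
theorem card_le_good (hq : 1 < q) (hφ : A.IsFrobeniusAt φ q) (hI : IsInt A.valuation (E⁄K))
    (hΔ : A.valuation (E⁄K).Δ = 1) {n : ℕ} (hn : Odd n) (hvn : A.valuation (n : K) = 1)
    {G : AddSubgroup (E⁄K).Point} (hG : ∀ P ∈ G, n • P = 0) (hfix : ∀ P ∈ G, φ • P = P) :
    Nat.card G ≤ q ^ 2 + 1 := by
  refine card_le_of_frob hq hφ hfix ?_ ?_
  · intro x y h hP
    have hx := hI.torsion_integral hn hvn h (hG _ hP)
    exact ⟨(A.valuation_le_one_iff x).1 hx, (A.valuation_le_one_iff y).1 (hI.y_integral h.1 hx)⟩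
  · intro x y h x' y' h' hP hP' hx hy
    have hx1 := hI.torsion_integral hn hvn h' (hG _ hP')
    rcases hI.sub_reduces hΔ h' h hx1 hx hy with h0 | ⟨x'', y'', h'', he, hx''⟩
    · exact sub_eq_zero.1 h0
    · exfalso
      have h1 := hG _ (sub_mem hP hP')
      rw [he] at h1
      exact absurd (hI.torsion_integral hn hvn h'' h1) (not_le.2 hx'')

/-- multiplicative reduction: at most `q² + 1` points of the identity component -/
theorem card_le_mult (hq : 1 < q) (hφ : A.IsFrobeniusAt φ q) (hI : IsInt A.valuation (E⁄K))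
    {r t : K} (M : IntT A.valuation (E⁄K) r t) (hm : A.valuation (tA4 (E⁄K) r t) < 1)
    {n : ℕ} (hn : Odd n) (hvn : A.valuation (n : K) = 1)
    {G : AddSubgroup (E⁄K).Point} (hG : ∀ P ∈ G, n • P = 0) (hG0 : G ≤ M.E0 hm)
    (hfix : ∀ P ∈ G, φ • P = P) :
    Nat.card G ≤ q ^ 2 + 1 := by
  have hxG : ∀ x y h, (Point.some x y h : (E⁄K).Point) ∈ G →
      A.valuation x ≤ 1 ∧ A.valuation y ≤ 1 ∧ A.valuation (x - r) = 1 := by
    intro x y h hP
    have hx := hI.torsion_integral hn hvn h (hG _ hP)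
    refine ⟨hx, hI.y_integral h.1 hx, le_antisymm ?_ ((M.mem_E0_some hm h).1 (hG0 hP))⟩
    exact (Valuation.map_sub _ _ _).trans (max_le hx M.vr)
  refine card_le_of_frob hq hφ hfix ?_ ?_
  · intro x y h hP
    obtain ⟨h1, h2, -⟩ := hxG x y h hP
    exact ⟨(A.valuation_le_one_iff x).1 h1, (A.valuation_le_one_iff y).1 h2⟩
  · intro x y h x' y' h' hP hP' hx hy
    obtain ⟨a1, a2, a3⟩ := hxG x y h hP
    obtain ⟨b1, b2, b3⟩ := hxG x' y' h' hP'
    have ht : A.valuation t ≤ 1 := hI.y_integral M.eqn M.vr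
    have hxr : x - r ≠ 0 := by
      intro h0; rw [h0, _root_.map_zero] at a3; exact zero_ne_one a3
    have hxr' : x' - r ≠ 0 := by
      intro h0; rw [h0, _root_.map_zero] at b3; exact zero_ne_one b3
    have e : sl r t x y - sl r t x' y' =
        ((y - y') * (x' - r) - (y' - t) * (x - x')) / ((x - r) * (x' - r)) := by
      rw [sl, sl]
      field_simp
      ring
    have hs : A.valuation (sl r t x y - sl r t x' y') < 1 := by
      rw [e, map_div₀, map_mul, a3, b3, one_mul, div_one]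
      refine Valuation.map_sub_lt _ ?_ ?_
      · rw [map_mul, b3, mul_one]; exact hy
      · rw [mul_comm, map_mul]
        exact mul_lt_one_of_lt_of_le hx ((Valuation.map_sub _ _ _).trans (max_le b2 ht))
    have h1 := M.sub_mem_E1_of_sl hm (h₁ := h) (h₂ := h') a3 b3 hs
    have h2 := eq_zero_of_mem_E1' M hI hn hvn (hG _ (sub_mem hP hP')) h1
    exact sub_eq_zero.1 h2

end count

end Fermat.Agent.Maz12
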