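import Fermat.Agent.Maz12.Fin
import Fermat.Agent.Mz.Main15
import Fermat.Agent.S13
import Fermat.Agent.S10
import Fermat.Agent.S11

/-!
# S12 and S09 from the descent statement
-/

set_option autoImplicit false

namespace Fermat.Agent.Maz12

open WeierstrassCurve WeierstrassCurve.Affine WeierstrassCurve.Affine.Point

theorem sym_of {N : ℕ} [hN : Fact N.Prime] [NeZero N]
    (hN' : N ∉ ({2, 3, 5, 7, 13} : Finset ℕ))
    (h4 : ∀ r : ℕ, r.Prime → r ≠ N → Mz.Alpha4 N r) : Sym N :=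
  fun W hΔ Q hQst hQord h2Δ h2c₄ h3Δ h3c₄ h2 h3 _ hℓ hℓN hℓΔ hℓc₄ A hA =>
    Mz.mazur_sym_of hN' h4 W hΔ Q hQst hQord h2Δ h2c₄ h3Δ h3c₄ h2 h3 hℓ hℓN hℓΔ hℓc₄ A hA

/-- S12 from the descent -/
theorem s12_of (h4 : ∀ (N : ℕ) [Fact N.Prime] [NeZero N], 5 ≤ N → ∀ r : ℕ, r.Prime → r ≠ N →
    Mz.Alpha4 N r) (P : FreyPackage) (hp : 17 ≤ P.p) :
    ¬ HasGaloisStableCofixedLine (K := AlgebraicClosure ℚ) ℚ P.freyCurve P.p := by
  haveI : Fact P.p.Prime := ⟨P.pp⟩
  haveI : NeZero P.p := ⟨P.hp0⟩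
  refine main12 P (sym_of ?_ (h4 P.p P.hp5)) hp
  intro h
  simp only [Finset.mem_insert, Finset.mem_singleton] at h
  omega

/-- S09 from S12 -/
theorem s09_of (h12 : ∀ P : FreyPackage, 17 ≤ P.p →
    ¬ HasGaloisStableCofixedLine (K := AlgebraicClosure ℚ) ℚ P.freyCurve P.p) (P : FreyPackage) :
    GaloisRepIsIrreducible (K := AlgebraicClosure ℚ) ℚ P.freyCurve P.p := by
  by_contra hred
  have hline := Fermat.Agent.S13.result P hred
  by_cases h17 : 17 ≤ P.p
  · exact h12 P h17 hline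
  push Not at h17
  have h5 := P.hp5
  have hpp := P.pp
  have hcases : P.p = 5 ∨ P.p = 7 ∨ P.p = 13 ∨ P.p = 11 := by
    generalize P.p = n at *
    interval_cases n <;> simp_all (config := { decide := true })
  rcases hcases with h | h | h | h
  · exact Fermat.Agent.S10.result P (Or.inl h) hline
  · exact Fermat.Agent.S10.result P (Or.inr (Or.inl h)) hline
  · exact Fermat.Agent.S10.result P (Or.inr (Or.inr h)) hline
  · exact Fermat.Agent.S11.result P h hline

end Fermat.Agent.Maz12
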