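import Fermat.Agent.Maz12.Comp

/-!
# The cofixed line lies in the identity component at all multiplicative primes
-/

set_option autoImplicit false
set_option linter.unusedSectionVars false
set_option linter.style.haveILetI false

noncomputable section

namespace Fermat.Agent.Maz12

open WeierstrassCurve WeierstrassCurve.Affine WeierstrassCurve.Affine.Point
open Fermat.Agent.EC Fermat.Agent.CL Fermat.Agent.Mz

local notation "Qb" => AlgebraicClosure ℚ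

/-- the symmetric form of Mazur's theorem -/
def Sym (N : ℕ) : Prop :=
  ∀ (W : WeierstrassCurve ℤ) (_ : W.Δ ≠ 0)
    (Q : ((W.map (Int.castRingHom ℚ))⁄Qb).Point)
    (_ : ∀ σ : Qb ≃ₐ[ℚ] Qb, ∃ m : ℕ, σ • Q = m • Q) (_ : addOrderOf Q = N)
    (_ : (2 : ℤ) ∣ W.Δ) (_ : ¬ (2 : ℤ) ∣ W.c₄)
    (_ : (3 : ℤ) ∣ W.Δ) (_ : ¬ (3 : ℤ) ∣ W.c₄)
    (_ : ∀ A : ValuationSubring Qb, A.LiesOverPrime 2 → W.InZeroComponentAt A Q)
    (_ : ∀ A : ValuationSubring Qb, A.LiesOverPrime 3 → W.InZeroComponentAt A Q)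
    {ℓ : ℕ} (_ : ℓ.Prime) (_ : ℓ ≠ N) (_ : (ℓ : ℤ) ∣ W.Δ) (_ : ¬ (ℓ : ℤ) ∣ W.c₄)
    (A : ValuationSubring Qb) (_ : A.LiesOverPrime ℓ), W.InZeroComponentAt A Q

theorem transport {N : ℕ} (hs : Sym N) (W : WeierstrassCurve ℤ) (hΔ : W.Δ ≠ 0)
    (E : WeierstrassCurve ℚ) (hE : E = W.map (Int.castRingHom ℚ))
    (Q : (E⁄Qb).Point)
    (hQst : ∀ σ : Qb ≃ₐ[ℚ] Qb, ∃ m : ℕ, σ • Q = m • Q) (hQord : addOrderOf Q = N)
    (h2Δ : (2 : ℤ) ∣ W.Δ) (h2c₄ : ¬ (2 : ℤ) ∣ W.c₄)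
    (h3Δ : (3 : ℤ) ∣ W.Δ) (h3c₄ : ¬ (3 : ℤ) ∣ W.c₄)
    (h2 : ∀ A : ValuationSubring Qb, A.LiesOverPrime 2 → ∃ (r t : Qb)
      (M : IntT A.valuation (E⁄Qb) r t) (hm : A.valuation (tA4 (E⁄Qb) r t) < 1), Q ∈ M.E0 hm)
    (h3 : ∀ A : ValuationSubring Qb, A.LiesOverPrime 3 → ∃ (r t : Qb)
      (M : IntT A.valuation (E⁄Qb) r t) (hm : A.valuation (tA4 (E⁄Qb) r t) < 1), Q ∈ M.E0 hm)
    {ℓ : ℕ} (hℓ : ℓ.Prime) (hℓN : ℓ ≠ N) (hℓΔ : (ℓ : ℤ) ∣ W.Δ) (hℓc₄ : ¬ (ℓ : ℤ) ∣ W.c₄)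
    (A : ValuationSubring Qb) (hA : A.LiesOverPrime ℓ) {r t : Qb}
    (M : IntT A.valuation (E⁄Qb) r t) (hm : A.valuation (tA4 (E⁄Qb) r t) < 1) :
    Q ∈ M.E0 hm := by
  subst hE
  refine (inZero_iff M hm Q).1 (hs W hΔ Q hQst hQord h2Δ h2c₄ h3Δ h3c₄ ?_ ?_ hℓ hℓN hℓΔ hℓc₄ A hA)
  · intro A hA
    obtain ⟨r, t, M, hm, h⟩ := h2 A hA
    exact (inZero_iff M hm Q).2 h
  · intro A hA
    obtain ⟨r, t, M, hm, h⟩ := h3 A hA
    exact (inZero_iff M hm Q).2 h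

variable (P : FreyPackage)

theorem int_c4 : P.freyCurveInt.c₄ = P.a ^ P.p * P.a ^ P.p + P.a ^ P.p * P.b ^ P.p +
    P.b ^ P.p * P.b ^ P.p := by
  have h : P.freyCurve.c₄ = ((P.freyCurveInt.c₄ : ℤ) : ℚ) := by
    rw [freyCurve_eq_map, WeierstrassCurve.map_c₄, eq_intCast]
  have h2 : P.freyCurve.c₄ = (P.a : ℚ) ^ P.p * P.a ^ P.p + P.a ^ P.p * P.b ^ P.p +
      P.b ^ P.p * P.b ^ P.p := by
    simp only [WeierstrassCurve.c₄, WeierstrassCurve.b₂, WeierstrassCurve.b₄,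
      FreyPackage.freyCurve]
    ring
  rw [h2] at h
  exact_mod_cast h.symm

theorem int_Δ : P.freyCurveInt.Δ * 256 = (P.a ^ P.p * P.b ^ P.p * P.c ^ P.p) ^ 2 := by
  have h : P.freyCurve.Δ = ((P.freyCurveInt.Δ : ℤ) : ℚ) := by
    rw [freyCurve_eq_map, WeierstrassCurve.map_Δ, eq_intCast]
  have h2 := frey_Δ P
  rw [h] at h2
  have h3 : ((P.freyCurveInt.Δ : ℤ) : ℚ) * 256 =
      ((P.a : ℚ) ^ P.p * (P.b : ℚ) ^ P.p * (P.c : ℚ) ^ P.p) ^ 2 := by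
    rw [h2]; norm_num
  exact_mod_cast h3

theorem int_Δ_ne : P.freyCurveInt.Δ ≠ 0 := by
  intro h
  have h1 := int_Δ P
  rw [h, zero_mul] at h1
  have h2 := (pow_eq_zero_iff (two_ne_zero)).1 h1.symm
  rcases mul_eq_zero.1 h2 with h3 | h3
  · rcases mul_eq_zero.1 h3 with h4 | h4
    · exact P.ha0 ((pow_eq_zero_iff P.hp0).1 h4)
    · exact P.hb0 ((pow_eq_zero_iff P.hp0).1 h4)
  · exact P.hc0 ((pow_eq_zero_iff P.hp0).1 h3)

theorem dvd_Δ {q : ℕ} (hq : q.Prime) (h : (q : ℤ) ∣ P.a * P.b * P.c) :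
    (q : ℤ) ∣ P.freyCurveInt.Δ := by
  have hqi := Nat.prime_iff_prime_int.mp hq
  have h1 := int_Δ P
  by_cases hq2 : q = 2
  · subst hq2
    obtain ⟨k, hk⟩ := frey_b_pow P
    have h2 : P.freyCurveInt.Δ * 256 = (4 * (P.a ^ P.p * k * P.c ^ P.p) ^ 2) * 256 := by
      rw [h1, hk]; ring
    have h3 := mul_right_cancel₀ (by norm_num : (256 : ℤ) ≠ 0) h2
    rw [h3]
    push_cast
    exact ⟨2 * (P.a ^ P.p * k * P.c ^ P.p) ^ 2, by ring⟩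
  · have h2 : (q : ℤ) ∣ P.freyCurveInt.Δ * 256 := by
      rw [h1, ← mul_pow, ← mul_pow]
      exact dvd_pow (dvd_pow h P.hp0) two_ne_zero
    rcases hqi.dvd_or_dvd h2 with h3 | h3
    · exact h3
    · exfalso
      have h4 : (q : ℤ) ∣ 2 ^ 8 := by norm_num; exact h3
      have h5 := hqi.dvd_of_dvd_pow h4
      have h6 : q ∣ 2 := by exact_mod_cast h5
      exact hq2 ((Nat.prime_dvd_prime_iff_eq hq Nat.prime_two).1 h6)

theorem not_dvd_c4 {q : ℕ} (hq : q.Prime) (h : (q : ℤ) ∣ P.a * P.b * P.c) :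
    ¬ (q : ℤ) ∣ P.freyCurveInt.c₄ := by
  have hqi := Nat.prime_iff_prime_int.mp hq
  rw [int_c4]
  intro hd
  have hcop : IsCoprime P.a P.b := by
    have := P.hgcdab
    exact (gcd_isUnit_iff P.a P.b).mp (by rw [this]; exact isUnit_one)
  have key : (q : ℤ) ∣ P.a ^ P.p ∧ (q : ℤ) ∣ P.b ^ P.p := by
    rcases hqi.dvd_or_dvd h with h | h
    · rcases hqi.dvd_or_dvd h with h | h
      · have h1 : (q : ℤ) ∣ P.a ^ P.p := dvd_pow h P.hp0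
        refine ⟨h1, ?_⟩
        have h2 : (q : ℤ) ∣ P.b ^ P.p * P.b ^ P.p := by
          have e : P.b ^ P.p * P.b ^ P.p = (P.a ^ P.p * P.a ^ P.p + P.a ^ P.p * P.b ^ P.p +
            P.b ^ P.p * P.b ^ P.p) - P.a ^ P.p * (P.a ^ P.p + P.b ^ P.p) := by ring
          rw [e]
          exact dvd_sub hd (h1.mul_right _)
        rcases hqi.dvd_or_dvd h2 with h3 | h3 <;> exact h3
      · have h1 : (q : ℤ) ∣ P.b ^ P.p := dvd_pow h P.hp0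
        refine ⟨?_, h1⟩
        have h2 : (q : ℤ) ∣ P.a ^ P.p * P.a ^ P.p := by
          have e : P.a ^ P.p * P.a ^ P.p = (P.a ^ P.p * P.a ^ P.p + P.a ^ P.p * P.b ^ P.p +
            P.b ^ P.p * P.b ^ P.p) - P.b ^ P.p * (P.a ^ P.p + P.b ^ P.p) := by ring
          rw [e]
          exact dvd_sub hd (h1.mul_right _)
        rcases hqi.dvd_or_dvd h2 with h3 | h3 <;> exact h3
    · have h1 : (q : ℤ) ∣ P.a ^ P.p + P.b ^ P.p := by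
        rw [P.hFLT]; exact dvd_pow h P.hp0
      have h2 : (q : ℤ) ∣ P.a ^ P.p * P.b ^ P.p := by
        have e : P.a ^ P.p * P.b ^ P.p = (P.a ^ P.p + P.b ^ P.p) * (P.a ^ P.p + P.b ^ P.p) -
          (P.a ^ P.p * P.a ^ P.p + P.a ^ P.p * P.b ^ P.p + P.b ^ P.p * P.b ^ P.p) := by ring
        rw [e]
        exact dvd_sub (h1.mul_right _) hd
      rcases hqi.dvd_or_dvd h2 with h3 | h3
      · exact ⟨h3, (dvd_add_right h3).1 h1⟩
      · exact ⟨(dvd_add_left h3).1 h1, h3⟩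
  exact hqi.not_isUnit (hcop.isUnit_of_dvd' (hqi.dvd_of_dvd_pow key.1) (hqi.dvd_of_dvd_pow key.2))

section

variable {N : AddSubgroup (P.freyCurve⁄Qb).Point}

/-- **the line lies in the identity component at all bad primes `≠ p`** -/
theorem line_all (hs : Sym P.p) (h17 : 17 ≤ P.p)
    (hNV : N ≤ tors (P.freyCurve⁄Qb) P.p) (hNcard : Nat.card N = P.p)
    (hVcard : Nat.card (tors (P.freyCurve⁄Qb) P.p) = P.p ^ 2)
    (hstab : ∀ σ : Qb ≃ₐ[ℚ] Qb, ∀ x ∈ N, σ • x ∈ N)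
    (hcof : ∀ σ : Qb ≃ₐ[ℚ] Qb, ∀ x ∈ tors (P.freyCurve⁄Qb) P.p, σ • x - x ∈ N)
    {q : ℕ} (hq : q.Prime) (hqp : q ≠ P.p) (habc : (q : ℤ) ∣ P.a * P.b * P.c)
    {A : ValuationSubring Qb} (hA : A.LiesOverPrime q) {r t : Qb}
    (M : IntT A.valuation (P.freyCurve⁄Qb) r t)
    (hm : A.valuation (tA4 (P.freyCurve⁄Qb) r t) < 1) : N ≤ M.E0 hm := by
  intro Q hQ
  by_cases hQ0 : Q = 0
  · rw [hQ0]; exact zero_mem _
  haveI : Fact P.p.Prime := ⟨P.pp⟩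
  have hord : addOrderOf Q = P.p := addOrderOf_eq_prime (hNV hQ) hQ0
  have h2abc : ((2 : ℕ) : ℤ) ∣ P.a * P.b * P.c :=
    dvd_mul_of_dvd_left (dvd_mul_of_dvd_right (frey_two_dvd_b P) _) _
  have h3abc : ((3 : ℕ) : ℤ) ∣ P.a * P.b * P.c :=
    small_bad P hNcard hVcard hcof Nat.prime_three (by omega)
  refine transport hs P.freyCurveInt (int_Δ_ne P) P.freyCurve (freyCurve_eq_map P) Q ?_ hord
    (dvd_Δ P Nat.prime_two h2abc) (not_dvd_c4 P Nat.prime_two h2abc)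
    (dvd_Δ P Nat.prime_three h3abc) (not_dvd_c4 P Nat.prime_three h3abc) ?_ ?_
    hq hqp (dvd_Δ P hq habc) (not_dvd_c4 P hq habc) A hA M hm
  · intro σ
    obtain ⟨k, -, hk⟩ := exists_nsmul_eq P.pp hNcard hQ hQ0 (hstab σ Q hQ)
    exact ⟨k, hk.symm⟩
  · intro A hA
    obtain ⟨r, t, tp, tm, M⟩ := frey_bad P A.valuation Nat.prime_two hA h2abc
    exact ⟨_, _, M.toIntT, M.hm, line_two P hNcard hcof hA M hQ⟩
  · intro A hA
    obtain ⟨r, t, tp, tm, M⟩ := frey_bad P A.valuation Nat.prime_three hA h3abc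
    exact ⟨_, _, M.toIntT, M.hm, line_small P hNV hNcard hVcard hcof Nat.prime_three (by omega)
      hA M hQ⟩

end

end Fermat.Agent.Maz12
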